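import Fermat.Agent.A2.H912.CoverLeafU

/-!
# S35, cell FROB, leaf COVER-F — helper193

The leaf COVER of route G (`Fermat.Agent.A2.H912.coverConclusionU`) for an automorphism `φ` of
`F` of possibly INFINITE order: only the orbit of `g` has to be finite, `(φ ^ r) g = g`, `0 < r`.

* `coverLiftOrb φ r m g hm hφg : L ≃+* L`, `L = H912.coverField φ r m g` (the splitting field of
  `∏_{i<r} (X^m - φ^i g)`), a lift of `φ`;
* `coverSeqOrb i = φ'^i y`, `coverSeqOrb_pow : (φ'^i y)^m = φ^i g`, `adjoin_coverSeqOrb`;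
* `coverLiftOrb_conj_mem_coverGal` : `φ'` normalises `Gal(L/F)`;
* `coverGal_smul_root_pow` (KUM): every `σ ∈ Gal(L/F)` multiplies `y` by a root of unity `ζ'`
  with `φ' ζ' = ζ' ^ Q`, if `φ ζ = ζ ^ Q`;
* `exists_pow_mul_eq_of_coverGal_fixed_pow` (KUM-F): if `φ' y / y ^ Q` is `Gal(L/F)`-invariant,
  then `φ g = h ^ m * g ^ Q` with `h : F`;
* `coverConclusionU_of_orbit` : `H12.CoverConclusionU w x m φ g` (VERBATIM the conclusion of the
  leaf COVER) from `HorDiv`, `SplitAtU` and the finite orbit.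
-/

set_option autoImplicit false

namespace Fermat.Agent.S35.H193

open Polynomial
open Fermat.Agent.A2 Fermat.Agent.A2.H12 Fermat.Agent.A2.H912

noncomputable section

section Field

variable {F : Type*} [Field F]

/-! ### The invariant polynomial -/

theorem coverPoly_map_orb (φ : F ≃+* F) {r : ℕ} {m : ℕ} (hm : 0 < m) (g : F)
    (hφg : (φ ^ r) g = g) :
    (coverPoly φ r m g).map (φ : F →+* F) = coverPoly φ r m g := by
  have h1 : (coverPoly φ r m g).map (φ : F →+* F) =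
      ∏ i ∈ Finset.range r, (X ^ m - C ((φ ^ (i + 1)) g)) := by
    rw [coverPoly, Polynomial.map_prod]
    refine Finset.prod_congr rfl fun i _ => ?_
    rw [Polynomial.map_sub, Polynomial.map_pow, map_X, map_C, pow_succ']
    rfl
  rw [h1]
  have h2 := Finset.prod_range_succ' (fun i => (X ^ m - C ((φ ^ i) g) : F[X])) r
  have h3 := Finset.prod_range_succ (fun i => (X ^ m - C ((φ ^ i) g) : F[X])) r
  rw [h3] at h2
  have h4 : (φ ^ 0) g = g := by simp
  rw [hφg, h4] at h2
  exact (mul_right_cancel₀ (X_pow_sub_C_ne_zero' hm _) h2).symm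

theorem coverPoly_map_symm_orb (φ : F ≃+* F) {r : ℕ} {m : ℕ} (hm : 0 < m) (g : F)
    (hφg : (φ ^ r) g = g) :
    (coverPoly φ r m g).map (φ.symm : F →+* F) = coverPoly φ r m g := by
  conv_lhs => rw [← coverPoly_map_orb φ hm g hφg]
  rw [Polynomial.map_map]
  have : (φ.symm : F →+* F).comp (φ : F →+* F) = RingHom.id F := by
    ext a; simp
  rw [this, Polynomial.map_id]

/-! ### The lift of `φ` to the cover field -/

theorem liftCl_mem_rootSet_orb (φ : F ≃+* F) {r m : ℕ} (hm : 0 < m) (g : F)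
    (hφg : (φ ^ r) g = g)
    {z : AlgebraicClosure F} (hz : z ∈ (coverPoly φ r m g).rootSet (AlgebraicClosure F)) :
    liftCl φ z ∈ (coverPoly φ r m g).rootSet (AlgebraicClosure F) := by
  rw [mem_rootSet] at hz ⊢
  refine ⟨hz.1, ?_⟩
  have := aeval_map_semilinear (φ : F →+* F) (liftCl φ : AlgebraicClosure F →+* AlgebraicClosure F)
    (fun a => liftCl_algebraMap φ a) (coverPoly φ r m g) z
  rw [coverPoly_map_orb φ hm g hφg] at this
  rw [RingHom.coe_coe] at this
  rw [this, hz.2, map_zero]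

theorem liftCl_symm_mem_rootSet_orb (φ : F ≃+* F) {r m : ℕ} (hm : 0 < m) (g : F)
    (hφg : (φ ^ r) g = g)
    {z : AlgebraicClosure F} (hz : z ∈ (coverPoly φ r m g).rootSet (AlgebraicClosure F)) :
    (liftCl φ).symm z ∈ (coverPoly φ r m g).rootSet (AlgebraicClosure F) := by
  rw [mem_rootSet] at hz ⊢
  refine ⟨hz.1, ?_⟩
  have := aeval_map_semilinear (φ.symm : F →+* F)
    ((liftCl φ).symm : AlgebraicClosure F →+* AlgebraicClosure F)
    (fun a => liftCl_symm_algebraMap φ a) (coverPoly φ r m g) z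
  rw [coverPoly_map_symm_orb φ hm g hφg] at this
  rw [RingHom.coe_coe] at this
  rw [this, hz.2, map_zero]

theorem liftCl_mem_coverField_orb (φ : F ≃+* F) {r m : ℕ} (hm : 0 < m) (g : F)
    (hφg : (φ ^ r) g = g)
    {z : AlgebraicClosure F} (hz : z ∈ coverField φ r m g) : liftCl φ z ∈ coverField φ r m g :=
  map_mem_adjoin_of_semilinear (φ : F →+* F)
    (liftCl φ : AlgebraicClosure F →+* AlgebraicClosure F) (fun a => liftCl_algebraMap φ a) _
    (fun _ hx => liftCl_mem_rootSet_orb φ hm g hφg hx) hz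

theorem liftCl_symm_mem_coverField_orb (φ : F ≃+* F) {r m : ℕ} (hm : 0 < m) (g : F)
    (hφg : (φ ^ r) g = g)
    {z : AlgebraicClosure F} (hz : z ∈ coverField φ r m g) :
    (liftCl φ).symm z ∈ coverField φ r m g :=
  map_mem_adjoin_of_semilinear (φ.symm : F →+* F)
    ((liftCl φ).symm : AlgebraicClosure F →+* AlgebraicClosure F)
    (fun a => liftCl_symm_algebraMap φ a) _
    (fun _ hx => liftCl_symm_mem_rootSet_orb φ hm g hφg hx) hz

/-- **The lift `φ'` of `φ` to the cover field** (finite orbit of `g` only). -/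
def coverLiftOrb (φ : F ≃+* F) (r m : ℕ) (g : F) (hm : 0 < m) (hφg : (φ ^ r) g = g) :
    coverField φ r m g ≃+* coverField φ r m g where
  toFun z := ⟨liftCl φ z, liftCl_mem_coverField_orb φ hm g hφg z.2⟩
  invFun z := ⟨(liftCl φ).symm z, liftCl_symm_mem_coverField_orb φ hm g hφg z.2⟩
  left_inv z := Subtype.ext (by simp)
  right_inv z := Subtype.ext (by simp)
  map_mul' a b := Subtype.ext (by simp)
  map_add' a b := Subtype.ext (by simp)

@[simp]
theorem coe_coverLiftOrb (φ : F ≃+* F) (r m : ℕ) (g : F) (hm : 0 < m) (hφg : (φ ^ r) g = g)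
    (z : coverField φ r m g) :
    ((coverLiftOrb φ r m g hm hφg z : coverField φ r m g) : AlgebraicClosure F) = liftCl φ z :=
  rfl

theorem coverLiftOrb_algebraMap (φ : F ≃+* F) (r m : ℕ) (g : F) (hm : 0 < m)
    (hφg : (φ ^ r) g = g) (a : F) :
    coverLiftOrb φ r m g hm hφg (algebraMap F (coverField φ r m g) a) =
      algebraMap F (coverField φ r m g) (φ a) :=
  Subtype.ext (by
    rw [coe_coverLiftOrb]
    exact liftCl_algebraMap φ a)

theorem coverLiftOrb_symm_algebraMap (φ : F ≃+* F) (r m : ℕ) (g : F) (hm : 0 < m)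
    (hφg : (φ ^ r) g = g) (a : F) :
    (coverLiftOrb φ r m g hm hφg).symm (algebraMap F (coverField φ r m g) a) =
      algebraMap F (coverField φ r m g) (φ.symm a) := by
  rw [RingEquiv.symm_apply_eq, coverLiftOrb_algebraMap, RingEquiv.apply_symm_apply]

theorem coverLiftOrb_pow_algebraMap (φ : F ≃+* F) (r m : ℕ) (g : F) (hm : 0 < m)
    (hφg : (φ ^ r) g = g) (i : ℕ) (a : F) :
    (coverLiftOrb φ r m g hm hφg ^ i) (algebraMap F (coverField φ r m g) a) =
      algebraMap F (coverField φ r m g) ((φ ^ i) a) := by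
  induction i with
  | zero => simp
  | succ i ih =>
    rw [pow_succ', pow_succ', RingAut.mul_apply, ih, coverLiftOrb_algebraMap, RingAut.mul_apply]

/-! ### The Kummer generators -/

/-- `y_i = φ'^i y`. -/
def coverSeqOrb (φ : F ≃+* F) (r m : ℕ) (g : F) (hr : 0 < r) (hm : 0 < m)
    (hφg : (φ ^ r) g = g) (i : ℕ) : coverField φ r m g :=
  (coverLiftOrb φ r m g hm hφg ^ i) (coverRoot φ r m g hr hm)

theorem coverSeqOrb_zero (φ : F ≃+* F) (r m : ℕ) (g : F) (hr : 0 < r) (hm : 0 < m)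
    (hφg : (φ ^ r) g = g) :
    coverSeqOrb φ r m g hr hm hφg 0 = coverRoot φ r m g hr hm := by
  simp [coverSeqOrb]

theorem coverLiftOrb_coverSeqOrb (φ : F ≃+* F) (r m : ℕ) (g : F) (hr : 0 < r) (hm : 0 < m)
    (hφg : (φ ^ r) g = g) (i : ℕ) :
    coverLiftOrb φ r m g hm hφg (coverSeqOrb φ r m g hr hm hφg i) =
      coverSeqOrb φ r m g hr hm hφg (i + 1) := by
  rw [coverSeqOrb, coverSeqOrb, pow_succ', RingAut.mul_apply]

theorem coverSeqOrb_pow (φ : F ≃+* F) (r m : ℕ) (g : F) (hr : 0 < r) (hm : 0 < m)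
    (hφg : (φ ^ r) g = g) (i : ℕ) :
    coverSeqOrb φ r m g hr hm hφg i ^ m = algebraMap F (coverField φ r m g) ((φ ^ i) g) := by
  rw [coverSeqOrb, ← map_pow, coverRoot_pow, coverLiftOrb_pow_algebraMap]

theorem coverSeqOrb_ne_zero (φ : F ≃+* F) (r m : ℕ) {g : F} (hg : g ≠ 0) (hr : 0 < r)
    (hm : 0 < m) (hφg : (φ ^ r) g = g) (i : ℕ) : coverSeqOrb φ r m g hr hm hφg i ≠ 0 := by
  rw [coverSeqOrb]
  exact (map_ne_zero_iff _ (RingEquiv.injective _)).2 (coverRoot_ne_zero φ r m hg hr hm)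

/-- `L = F(y_0, …, y_{r-1})`. -/
theorem adjoin_coverSeqOrb (φ : F ≃+* F) (r m : ℕ) (g : F) (hr : 0 < r) (hm : 0 < m)
    (hφg : (φ ^ r) g = g) {ζ : F} (hζ : IsPrimitiveRoot ζ m) :
    IntermediateField.adjoin F
      (Set.range (fun i : Fin r => coverSeqOrb φ r m g hr hm hφg i)) = ⊤ := by
  have : NeZero m := ⟨hm.ne'⟩
  rw [eq_top_iff]
  rintro ⟨z, hz⟩ -
  induction hz using IntermediateField.adjoin_induction with
  | mem x hx =>
    have hx0 : x ∈ coverField φ r m g := IntermediateField.subset_adjoin F _ hx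
    rw [mem_rootSet, aeval_coverPoly_eq_zero_iff] at hx
    obtain ⟨-, i, hi, hxi⟩ := hx
    set K := IntermediateField.adjoin F
      (Set.range (fun i : Fin r => coverSeqOrb φ r m g hr hm hφg i)) with hK
    have hyi : coverSeqOrb φ r m g hr hm hφg i ∈ K :=
      IntermediateField.subset_adjoin F _ ⟨⟨i, hi⟩, rfl⟩
    have hpow : (⟨x, hx0⟩ : coverField φ r m g) ^ m = coverSeqOrb φ r m g hr hm hφg i ^ m := by
      rw [coverSeqOrb_pow]
      exact Subtype.ext (by simpa using hxi)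
    by_cases hg : g = 0
    · have : (⟨x, hx0⟩ : coverField φ r m g) = 0 := by
        have h0 : (⟨x, hx0⟩ : coverField φ r m g) ^ m = 0 := by
          rw [hpow, coverSeqOrb_pow, hg, map_zero, map_zero]
        exact pow_eq_zero_iff hm.ne' |>.1 h0
      rw [this]
      exact zero_mem _
    · have hy0 := coverSeqOrb_ne_zero φ r m hg hr hm hφg i
      have h1 : ((⟨x, hx0⟩ : coverField φ r m g) / coverSeqOrb φ r m g hr hm hφg i) ^ m = 1 := by
        rw [div_pow, hpow]
        exact div_self (pow_ne_zero _ hy0)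
      have hζ' : IsPrimitiveRoot (algebraMap F (coverField φ r m g) ζ) m :=
        hζ.map_of_injective (algebraMap F (coverField φ r m g)).injective
      obtain ⟨k, -, hk'⟩ := hζ'.eq_pow_of_pow_eq_one h1
      have : (⟨x, hx0⟩ : coverField φ r m g) =
          algebraMap F (coverField φ r m g) ζ ^ k * coverSeqOrb φ r m g hr hm hφg i := by
        rw [hk', div_mul_cancel₀ _ hy0]
      rw [this]
      exact mul_mem (pow_mem (IntermediateField.algebraMap_mem _ _) _) hyi
  | algebraMap a => exact IntermediateField.algebraMap_mem _ a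
  | add x y hx hy ihx ihy => exact add_mem ihx ihy
  | inv x hx ihx => exact inv_mem ihx
  | mul x y hx hy ihx ihy => exact mul_mem ihx ihy

/-! ### The Galois group and Kummer theory with `φ ζ = ζ ^ Q` -/

/-- The lift `φ'` normalises `Γ = Gal(L/F)`. -/
theorem coverLiftOrb_conj_mem_coverGal (φ : F ≃+* F) (r m : ℕ) (g : F) (hm : 0 < m)
    (hφg : (φ ^ r) g = g) :
    ∀ σ ∈ coverGal φ r m g,
      coverLiftOrb φ r m g hm hφg * σ * (coverLiftOrb φ r m g hm hφg)⁻¹ ∈ coverGal φ r m g := by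
  intro σ hσ a
  change coverLiftOrb φ r m g hm hφg (σ ((coverLiftOrb φ r m g hm hφg).symm _)) = _
  rw [coverLiftOrb_symm_algebraMap, hσ, coverLiftOrb_algebraMap, RingEquiv.apply_symm_apply]

/-- **KUM**: every `σ ∈ Γ` multiplies `y` by a root of unity `ζ'` with `φ' ζ' = ζ' ^ Q`,
if `φ ζ = ζ ^ Q` for a primitive `m`-th root of unity `ζ` of `F`. -/
theorem coverGal_smul_root_pow (φ : F ≃+* F) (r m : ℕ) {g : F} (hg : g ≠ 0) (hr : 0 < r)
    (hm : 0 < m) (hφg : (φ ^ r) g = g) {ζ : F} (hζ : IsPrimitiveRoot ζ m) (Q : ℕ)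
    (hφζ : φ ζ = ζ ^ Q) :
    ∀ σ ∈ coverGal φ r m g, ∃ ζ' : coverField φ r m g,
      σ (coverRoot φ r m g hr hm) = ζ' * coverRoot φ r m g hr hm ∧ ζ' ^ m = 1 ∧
        (∀ ρ ∈ coverGal φ r m g, ρ ζ' = ζ') ∧
        coverLiftOrb φ r m g hm hφg ζ' = ζ' ^ Q := by
  intro σ hσ
  obtain ⟨k, -, hk⟩ := coverGal_smul_eq φ r m g hζ hm (coverRoot_ne_zero φ r m hg hr hm)
    (coverRoot_pow φ r m g hr hm) σ hσ
  refine ⟨_, hk, ?_, fun ρ hρ => hρ _, ?_⟩
  · rw [← map_pow, ← pow_mul, mul_comm, pow_mul, hζ.pow_eq_one, one_pow, map_one]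
  · rw [coverLiftOrb_algebraMap, map_pow, hφζ, ← map_pow, ← pow_mul, ← pow_mul, mul_comm]

/-- **KUM-F, invariance**: `φ' y / y ^ Q` is `Γ`-invariant as soon as every `σ ∈ Γ` commutes
with `φ'` on `y` (the conclusion of the deck lemma), `φ ζ = ζ ^ Q`. -/
theorem coverGal_fixed_of_comm (φ : F ≃+* F) (r m : ℕ) {g : F} (hg : g ≠ 0) (hr : 0 < r)
    (hm : 0 < m) (hφg : (φ ^ r) g = g) {ζ : F} (hζ : IsPrimitiveRoot ζ m) (Q : ℕ)
    (hφζ : φ ζ = ζ ^ Q)
    (hcomm : ∀ σ ∈ coverGal φ r m g,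
      σ (coverLiftOrb φ r m g hm hφg (coverRoot φ r m g hr hm)) =
        coverLiftOrb φ r m g hm hφg (σ (coverRoot φ r m g hr hm))) :
    ∀ σ ∈ coverGal φ r m g,
      σ (coverLiftOrb φ r m g hm hφg (coverRoot φ r m g hr hm) / coverRoot φ r m g hr hm ^ Q) =
        coverLiftOrb φ r m g hm hφg (coverRoot φ r m g hr hm) / coverRoot φ r m g hr hm ^ Q := by
  intro σ hσ
  obtain ⟨ζ', h1, -, -, h3⟩ := coverGal_smul_root_pow φ r m hg hr hm hφg hζ Q hφζ σ hσ
  have hy0 := coverRoot_ne_zero φ r m hg hr hm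
  have hζ'0 : ζ' ≠ 0 := by
    rintro rfl
    rw [zero_mul] at h1
    exact hy0 ((map_eq_zero_iff σ σ.injective).1 h1)
  rw [map_div₀, map_pow, hcomm σ hσ, h1, map_mul, h3, mul_pow]
  field_simp

/-- **KUM-F, conclusion**: if `φ' y / y ^ Q` is `Γ`-invariant, then `φ g = h ^ m * g ^ Q` with
`h ∈ F^×`. -/
theorem exists_pow_mul_eq_of_coverGal_fixed_pow [CharZero F] (φ : F ≃+* F) (r m : ℕ) {g : F}
    (hg : g ≠ 0) (hr : 0 < r) (hm : 0 < m) (hφg : (φ ^ r) g = g) (Q : ℕ)
    (hfix : ∀ σ ∈ coverGal φ r m g,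
      σ (coverLiftOrb φ r m g hm hφg (coverRoot φ r m g hr hm) / coverRoot φ r m g hr hm ^ Q) =
        coverLiftOrb φ r m g hm hφg (coverRoot φ r m g hr hm) / coverRoot φ r m g hr hm ^ Q) :
    ∃ h : F, h ≠ 0 ∧ φ g = h ^ m * g ^ Q := by
  obtain ⟨h, hh⟩ := mem_range_of_coverGal_fixed φ r m g _ hfix
  have hy0 := coverRoot_ne_zero φ r m hg hr hm
  have hg' : algebraMap F (coverField φ r m g) g ≠ 0 :=
    (map_ne_zero_iff _ (algebraMap F (coverField φ r m g)).injective).2 hg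
  have key : algebraMap F (coverField φ r m g) (h ^ m * g ^ Q) =
      algebraMap F (coverField φ r m g) (φ g) := by
    rw [map_mul, map_pow, map_pow, hh, div_pow, ← map_pow, coverRoot_pow, coverLiftOrb_algebraMap,
      ← pow_mul, mul_comm Q m, pow_mul, coverRoot_pow, div_mul_cancel₀ _ (pow_ne_zero _ hg')]
  have key' : h ^ m * g ^ Q = φ g := (algebraMap F (coverField φ r m g)).injective key
  refine ⟨h, ?_, key'.symm⟩
  rintro rfl
  rw [zero_pow hm.ne', zero_mul] at key'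
  exact hg ((map_eq_zero φ).1 key'.symm)

end Field

/-! ### The leaf -/

section Main

universe u

variable {R : Type u} [CommRing R] {F : Type u} [Field F] [Algebra R F]

/-- **Leaf COVER-F**: the conclusion of the leaf COVER of route G for an automorphism `φ` of
possibly infinite order, `g` having a finite `φ`-orbit. -/
theorem coverConclusionU_of_orbit [CharZero F] (w : R) (x : F) (m : ℕ) (φ : F ≃+* F)
    (φR : R ≃+* R)
    (hinj : Function.Injective (algebraMap R F)) (hm : 0 < m)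
    (hroot : ∃ ζ : R, IsPrimitiveRoot ζ m)
    (hφx : φ x = x) (hφR : ∀ r, φ (algebraMap R F r) = algebraMap R F (φR r))
    (hφw : ∀ r, w ∣ r ↔ w ∣ φR r)
    {r : ℕ} (hr : 0 < r)
    (g : F) (hφg : (φ ^ r) g = g) (hg : g ≠ 0) (hdiv : HorDiv R m g)
    (hsplit : ∀ V : ValuationSubring F, IsSheet w x V → SplitAtU m V g) :
    CoverConclusionU w x m φ g := by
  obtain ⟨ζ, hζ⟩ := hroot
  have hζF : IsPrimitiveRoot (algebraMap R F ζ) m := hζ.map_of_injective hinj
  let algRL : Algebra R (coverField φ r m g) :=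
    ((algebraMap F (coverField φ r m g)).comp (algebraMap R F)).toAlgebra
  have tower : IsScalarTower R F (coverField φ r m g) :=
    IsScalarTower.of_algebraMap_eq (fun _ => rfl)
  refine ⟨coverField φ r m g, inferInstance, inferInstance, algRL, tower, ?_,
    coverLiftOrb φ r m g hm hφg, coverRoot φ r m g hr hm,
    fun f => coverLiftOrb_algebraMap φ r m g hm hφg f, coverRoot_pow φ r m g hr hm⟩
  refine ⟨inferInstance, inferInstance, r, fun i => coverSeqOrb φ r m g hr hm hφg i,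
    fun i => (φ ^ (i : ℕ)) g, ?_, ?_, ?_, ?_, ?_⟩
  · intro i
    exact (map_ne_zero_iff _ (RingEquiv.injective _)).2 hg
  · intro i
    exact coverSeqOrb_pow φ r m g hr hm hφg i
  · exact adjoin_coverSeqOrb φ r m g hr hm hφg hζF
  · intro i
    exact horDiv_map m (φ ^ (i : ℕ)) (φR ^ (i : ℕ))
      (fun a => ringAut_pow_algebraMap φ φR hφR i a) hdiv
  · intro i V hV
    refine splitAtU_map m (φ ^ (i : ℕ)) V (hsplit _ ?_)
    exact hV.comap (φ ^ (i : ℕ)) (φR ^ (i : ℕ)) (fun a => ringAut_pow_algebraMap φ φR hφR i a)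
      (fun a => ringAut_pow_dvd_iff w φR hφw i a) (ringAut_pow_fix φ hφx i)

/-- **Leaf COVER-F, uncorrected form** (`SplitAt` / `CoverConclusion` of `H12/GSpec.lean`). -/
theorem coverConclusion_of_orbit [CharZero F] (w : R) (x : F) (m : ℕ) (φ : F ≃+* F)
    (φR : R ≃+* R)
    (hinj : Function.Injective (algebraMap R F)) (hm : 0 < m)
    (hroot : ∃ ζ : R, IsPrimitiveRoot ζ m)
    (hφx : φ x = x) (hφR : ∀ r, φ (algebraMap R F r) = algebraMap R F (φR r))
    (hφw : ∀ r, w ∣ r ↔ w ∣ φR r)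
    {r : ℕ} (hr : 0 < r)
    (g : F) (hφg : (φ ^ r) g = g) (hg : g ≠ 0) (hdiv : HorDiv R m g)
    (hsplit : ∀ V : ValuationSubring F, IsSheet w x V → SplitAt m V g) :
    CoverConclusion w x m φ g := by
  obtain ⟨ζ, hζ⟩ := hroot
  have hζF : IsPrimitiveRoot (algebraMap R F ζ) m := hζ.map_of_injective hinj
  let algRL : Algebra R (coverField φ r m g) :=
    ((algebraMap F (coverField φ r m g)).comp (algebraMap R F)).toAlgebra
  have tower : IsScalarTower R F (coverField φ r m g) :=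
    IsScalarTower.of_algebraMap_eq (fun _ => rfl)
  refine ⟨coverField φ r m g, inferInstance, inferInstance, algRL, tower, ?_,
    coverLiftOrb φ r m g hm hφg, coverRoot φ r m g hr hm,
    fun f => coverLiftOrb_algebraMap φ r m g hm hφg f, coverRoot_pow φ r m g hr hm⟩
  refine ⟨inferInstance, inferInstance, r, fun i => coverSeqOrb φ r m g hr hm hφg i,
    fun i => (φ ^ (i : ℕ)) g, ?_, ?_, ?_, ?_, ?_⟩
  · intro i
    exact (map_ne_zero_iff _ (RingEquiv.injective _)).2 hg
  · intro i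
    exact coverSeqOrb_pow φ r m g hr hm hφg i
  · exact adjoin_coverSeqOrb φ r m g hr hm hφg hζF
  · intro i
    exact horDiv_map m (φ ^ (i : ℕ)) (φR ^ (i : ℕ))
      (fun a => ringAut_pow_algebraMap φ φR hφR i a) hdiv
  · intro i V hV
    refine splitAt_map m (φ ^ (i : ℕ)) V (hsplit _ ?_)
    exact hV.comap (φ ^ (i : ℕ)) (φR ^ (i : ℕ)) (fun a => ringAut_pow_algebraMap φ φR hφR i a)
      (fun a => ringAut_pow_dvd_iff w φR hφw i a) (ringAut_pow_fix φ hφx i)

end Main

end

end Fermat.Agent.S35.H193
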