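import Fermat.Agent.S35.H891.Spec
import Fermat.Agent.S35.H193.CoverF

/-!
# S35, cell FROB, leaf COVER-F in the shape of `H891/Spec.lean` — helper193

`coverFLeaf : Fermat.Agent.S35.H891.CoverFLeaf` (VERBATIM).  The corrected (`U`) form is
`Fermat.Agent.S35.H193.coverConclusionU_of_orbit` (`CoverF.lean`).
-/

set_option autoImplicit false

namespace Fermat.Agent.S35.H193

/-- **Leaf COVER-F** (`H891/Spec.lean`, verbatim). -/
theorem coverFLeaf : Fermat.Agent.S35.H891.CoverFLeaf := by
  intro R F _ _ _ _ w x m φ φR hinj hm hroot hφx hφR hφw r hr g hφg hg hdiv hsplit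
  exact coverConclusion_of_orbit w x m φ φR hinj hm hroot hφx hφR hφw hr g hφg hg hdiv hsplit

end Fermat.Agent.S35.H193
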